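/-
S56, wall W2-EC, leaf (B2), part 1 (helper7): the characteristic polynomial of a cyclic block
matrix.

For an `n × n` matrix `M` over a field and `m ≥ 0`, the block matrix `cycBlock m M` of size
`(m+1) n` with the block `M` at the positions `(i+1, i)` (indices in `Fin (m+1)`, cyclically)
has characteristic polynomial `χ_{M^(m+1)}(X^(m+1))`.

Proof: `T = N + U W` with `N` nilpotent (`N^(m+1) = 0`) and `U W` the corner block;
`1 - X T = (1 - X N)(1 - B (X U) W)` with `B = Σ_{k ≤ m} (X N)^k`, `det (1 - X N) = 1`, and the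
Weinstein–Aronszajn identity `det (1 - A B) = det (1 - B A)`.
-/
import Mathlib

set_option autoImplicit false

namespace Fermat.Agent.S56.EC.Ind

open Matrix Polynomial

variable {R : Type*} [CommRing R] {n : Type*}

/-- The cyclic block matrix: the block `M` at the positions `(i + 1, i)`, `i : Fin (m+1)`. -/
def cycBlock (m : ℕ) (M : Matrix n n R) : Matrix (Fin (m + 1) × n) (Fin (m + 1) × n) R :=
  Matrix.of fun p q => if p.1 = q.1 + 1 then M p.2 q.2 else 0

/-- The nilpotent part: the block `M` at the positions `(i + 1, i)`, `i < m`. -/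
def cycNil (m : ℕ) (M : Matrix n n R) : Matrix (Fin (m + 1) × n) (Fin (m + 1) × n) R :=
  Matrix.of fun p q => if (p.1 : ℕ) = (q.1 : ℕ) + 1 then M p.2 q.2 else 0

/-- The column part of the corner block. -/
def cycU (m : ℕ) (M : Matrix n n R) : Matrix (Fin (m + 1) × n) n R :=
  Matrix.of fun p b => if (p.1 : ℕ) = 0 then M p.2 b else 0

/-- The row part of the corner block. -/
def cycW [DecidableEq n] (m : ℕ) : Matrix n (Fin (m + 1) × n) R :=
  Matrix.of fun a q => if (q.1 : ℕ) = m ∧ a = q.2 then 1 else 0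

lemma cycBlock_apply (m : ℕ) (M : Matrix n n R) (p q : Fin (m + 1) × n) :
    cycBlock m M p q = if p.1 = q.1 + 1 then M p.2 q.2 else 0 := rfl

lemma cycNil_apply (m : ℕ) (M : Matrix n n R) (p q : Fin (m + 1) × n) :
    cycNil m M p q = if (p.1 : ℕ) = (q.1 : ℕ) + 1 then M p.2 q.2 else 0 := rfl

lemma cycU_apply (m : ℕ) (M : Matrix n n R) (p : Fin (m + 1) × n) (b : n) :
    cycU m M p b = if (p.1 : ℕ) = 0 then M p.2 b else 0 := rfl

lemma cycW_apply [DecidableEq n] (m : ℕ) (a : n) (q : Fin (m + 1) × n) :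
    (cycW m : Matrix n (Fin (m + 1) × n) R) a q = if (q.1 : ℕ) = m ∧ a = q.2 then 1 else 0 := rfl

variable [Fintype n] [DecidableEq n]

lemma cycBlock_eq (m : ℕ) (M : Matrix n n R) :
    cycBlock m M = cycNil m M + cycU m M * (cycW m : Matrix n (Fin (m + 1) × n) R) := by
  ext ⟨i, a⟩ ⟨j, b⟩
  simp only [Matrix.add_apply, Matrix.mul_apply, cycBlock_apply, cycNil_apply, cycU_apply,
    cycW_apply]
  have hsum : ∑ c, (if (i : ℕ) = 0 then M a c else 0) *
      (if (j : ℕ) = m ∧ c = b then (1 : R) else 0)
      = if (i : ℕ) = 0 ∧ (j : ℕ) = m then M a b else 0 := by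
    rw [Finset.sum_eq_single b]
    · by_cases hi : (i : ℕ) = 0 <;> by_cases hj : (j : ℕ) = m <;> simp [hi, hj]
    · intro c _ hc
      simp [hc]
    · intro h
      exact absurd (Finset.mem_univ b) h
  rw [hsum]
  have hj : (j : ℕ) < m + 1 := j.isLt
  have hi : (i : ℕ) < m + 1 := i.isLt
  have key : (i = j + 1) ↔ ((i : ℕ) = (j : ℕ) + 1 ∨ ((i : ℕ) = 0 ∧ (j : ℕ) = m)) := by
    rw [Fin.ext_iff, Fin.val_add_one]
    by_cases hjl : j = Fin.last m
    · have hjm : (j : ℕ) = m := by rw [hjl]; rfl
      simp only [hjl, if_true]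
      constructor
      · intro h; right; exact ⟨h, rfl⟩
      · rintro (h | h)
        · simp only [Fin.val_last] at h; omega
        · exact h.1
    · have hjm : (j : ℕ) ≠ m := fun h => hjl (Fin.ext (by simpa using h))
      simp only [hjl, if_false]
      constructor
      · intro h; left; exact h
      · rintro (h | h)
        · exact h
        · exact absurd h.2 hjm
  by_cases h1 : (i : ℕ) = (j : ℕ) + 1
  · have h2 : ¬ ((i : ℕ) = 0 ∧ (j : ℕ) = m) := by omega
    rw [if_pos (key.2 (Or.inl h1)), if_pos h1, if_neg h2, add_zero]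
  · by_cases h2 : ((i : ℕ) = 0 ∧ (j : ℕ) = m)
    · rw [if_pos (key.2 (Or.inr h2)), if_neg h1, if_pos h2, zero_add]
    · have : ¬ (i = j + 1) := fun h => (key.1 h).elim h1 h2
      rw [if_neg this, if_neg h1, if_neg h2, add_zero]

/-- Entries of the powers of the nilpotent part. -/
lemma cycNil_pow_apply (m : ℕ) (M : Matrix n n R) (k : ℕ) (p q : Fin (m + 1) × n) :
    (cycNil m M ^ k) p q = if (p.1 : ℕ) = (q.1 : ℕ) + k then (M ^ k) p.2 q.2 else 0 := by
  induction k generalizing p q with
  | zero =>
    obtain ⟨i, a⟩ := p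
    obtain ⟨j, b⟩ := q
    simp only [pow_zero, add_zero, Matrix.one_apply, Prod.mk.injEq]
    by_cases hij : i = j
    · subst hij
      simp
    · have : (i : ℕ) ≠ j := fun h => hij (Fin.ext h)
      simp [hij, this]
  | succ k ih =>
    obtain ⟨i, a⟩ := p
    obtain ⟨j, b⟩ := q
    rw [pow_succ, Matrix.mul_apply, Fintype.sum_prod_type]
    simp only [ih, cycNil_apply]
    by_cases hj : (j : ℕ) + 1 < m + 1
    · rw [Finset.sum_eq_single (⟨(j : ℕ) + 1, hj⟩ : Fin (m + 1))]
      · simp only [if_true]
        by_cases hi : (i : ℕ) = (j : ℕ) + (k + 1)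
        · have hi' : (i : ℕ) = (j : ℕ) + 1 + k := by omega
          rw [if_pos hi]
          simp only [hi', if_true]
          rw [pow_succ, Matrix.mul_apply]
        · have hi' : ¬ (i : ℕ) = (j : ℕ) + 1 + k := by omega
          rw [if_neg hi]
          simp only [hi', if_false, zero_mul, Finset.sum_const_zero]
      · intro l _ hl
        have : ¬ (l : ℕ) = (j : ℕ) + 1 := fun h => hl (Fin.ext h)
        simp only [this, if_false, mul_zero, Finset.sum_const_zero]
      · intro h
        exact absurd (Finset.mem_univ _) h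
    · have hi : ¬ (i : ℕ) = (j : ℕ) + (k + 1) := by
        have := i.isLt
        omega
      rw [if_neg hi]
      refine Finset.sum_eq_zero fun l _ => ?_
      have : ¬ (l : ℕ) = (j : ℕ) + 1 := by
        have := l.isLt
        omega
      simp only [this, if_false, mul_zero, Finset.sum_const_zero]

lemma cycNil_pow_eq_zero (m : ℕ) (M : Matrix n n R) : cycNil m M ^ (m + 1) = 0 := by
  ext p q
  rw [cycNil_pow_apply, Matrix.zero_apply, if_neg]
  have := p.1.isLt
  omega

lemma cycNil_isNilpotent (m : ℕ) (M : Matrix n n R) : IsNilpotent (cycNil m M) :=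
  ⟨m + 1, cycNil_pow_eq_zero m M⟩

/-- `det (1 - x N) = 1`: the matrix is block triangular with identity blocks on the diagonal. -/
lemma det_one_sub_smul_cycNil (m : ℕ) (M : Matrix n n R) (x : R) :
    det (1 - x • cycNil m M) = 1 := by
  have hN : BlockTriangular (cycNil m M)
      (fun p : Fin (m + 1) × n => OrderDual.toDual p.1) := by
    intro p q hpq
    rw [cycNil_apply, if_neg]
    have h : p.1 < q.1 := hpq
    have h' : (p.1 : ℕ) < (q.1 : ℕ) := h
    omega
  have hBT : BlockTriangular (1 - x • cycNil m M)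
      (fun p : Fin (m + 1) × n => OrderDual.toDual p.1) := by
    refine blockTriangular_one.sub ?_
    intro p q hpq
    rw [Matrix.smul_apply, hN hpq, smul_zero]
  rw [hBT.det]
  refine Finset.prod_eq_one fun a _ => ?_
  have : (1 - x • cycNil m M).toSquareBlock
      (fun p : Fin (m + 1) × n => OrderDual.toDual p.1) a = 1 := by
    ext ⟨p, hp⟩ ⟨q, hq⟩
    have hpq : p.1 = q.1 := by
      have h1 : OrderDual.toDual p.1 = OrderDual.toDual q.1 := hp.trans hq.symm
      exact h1
    have h0 : cycNil m M p q = 0 := by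
      rw [cycNil_apply, if_neg]
      rw [hpq]
      omega
    simp only [Matrix.toSquareBlock_def, Matrix.of_apply, Matrix.sub_apply, Matrix.smul_apply,
      h0, smul_zero, sub_zero, Matrix.one_apply, Subtype.mk.injEq]
  rw [this, det_one]

/-- The corner entry `W B (x U) = x^(m+1) M^(m+1)` for `B = Σ_{k ≤ m} (x N)^k`. -/
lemma cycW_mul_geom_mul_cycU (m : ℕ) (M : Matrix n n R) (x : R) :
    (cycW m : Matrix n (Fin (m + 1) × n) R) *
        ((∑ k ∈ Finset.range (m + 1), (x • cycNil m M) ^ k) * (x • cycU m M))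
      = x ^ (m + 1) • M ^ (m + 1) := by
  ext a b
  have hB : ∀ c : n, (∑ k ∈ Finset.range (m + 1), (x • cycNil m M) ^ k)
      ((Fin.last m, a) : Fin (m + 1) × n) ((0, c) : Fin (m + 1) × n) = x ^ m * (M ^ m) a c := by
    intro c
    rw [Matrix.sum_apply, Finset.sum_eq_single m]
    · rw [_root_.smul_pow, Matrix.smul_apply, cycNil_pow_apply, if_pos (by simp), smul_eq_mul]
    · intro k _ hk
      rw [_root_.smul_pow, Matrix.smul_apply, cycNil_pow_apply, if_neg, smul_zero]
      simp only [Fin.val_last, Fin.val_zero, zero_add]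
      exact fun h => hk h.symm
    · intro h
      exact absurd (Finset.mem_range.2 (Nat.lt_succ_self m)) h
  have hBU : ∀ p : Fin (m + 1) × n,
      ((∑ k ∈ Finset.range (m + 1), (x • cycNil m M) ^ k) * (x • cycU m M)) p b
        = ∑ c, (∑ k ∈ Finset.range (m + 1), (x • cycNil m M) ^ k) p ((0, c) : Fin (m + 1) × n)
            * (x * M c b) := by
    intro p
    rw [Matrix.mul_apply, Fintype.sum_prod_type, Finset.sum_eq_single (0 : Fin (m + 1))]
    · refine Finset.sum_congr rfl fun c _ => ?_
      rw [Matrix.smul_apply, cycU_apply, if_pos (by simp), smul_eq_mul]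
    · intro i _ hi
      refine Finset.sum_eq_zero fun c _ => ?_
      have : ¬ ((i : ℕ) = 0) := fun h => hi (Fin.ext (by simpa using h))
      rw [Matrix.smul_apply, cycU_apply, if_neg this, smul_zero, mul_zero]
    · intro h
      exact absurd (Finset.mem_univ _) h
  rw [Matrix.mul_apply, Fintype.sum_prod_type, Finset.sum_eq_single (Fin.last m)]
  · rw [Finset.sum_eq_single a]
    · rw [cycW_apply, if_pos ⟨by simp, rfl⟩, one_mul, hBU]
      simp only [hB]
      rw [Matrix.smul_apply, pow_succ (M), Matrix.mul_apply, smul_eq_mul, Finset.mul_sum]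
      refine Finset.sum_congr rfl fun c _ => ?_
      ring
    · intro c _ hc
      rw [cycW_apply, if_neg, zero_mul]
      rintro ⟨_, h⟩
      exact hc h.symm
    · intro h
      exact absurd (Finset.mem_univ _) h
  · intro i _ hi
    refine Finset.sum_eq_zero fun c _ => ?_
    rw [cycW_apply, if_neg, zero_mul]
    rintro ⟨h, _⟩
    exact hi (Fin.ext (by simpa using h))
  · intro h
    exact absurd (Finset.mem_univ _) h

/-- **Cyclic block determinant**: `det (1 - x T) = det (1 - x^(m+1) M^(m+1))`. -/
theorem det_one_sub_smul_cycBlock (m : ℕ) (M : Matrix n n R) (x : R) :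
    det (1 - x • cycBlock m M) = det (1 - x ^ (m + 1) • M ^ (m + 1)) := by
  set N : Matrix (Fin (m + 1) × n) (Fin (m + 1) × n) R := cycNil m M with hNdef
  set U : Matrix (Fin (m + 1) × n) n R := cycU m M with hUdef
  set W : Matrix n (Fin (m + 1) × n) R := cycW m with hWdef
  set B : Matrix (Fin (m + 1) × n) (Fin (m + 1) × n) R :=
    ∑ k ∈ Finset.range (m + 1), (x • N) ^ k with hBdef
  have hgeo : (1 - x • N) * B = 1 := by
    rw [hBdef, mul_neg_geom_sum, _root_.smul_pow, hNdef, cycNil_pow_eq_zero, smul_zero, sub_zero]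
  have hfac : 1 - x • cycBlock m M = (1 - x • N) * (1 - (B * (x • U)) * W) := by
    rw [mul_sub, mul_one, ← Matrix.mul_assoc, ← Matrix.mul_assoc, hgeo, Matrix.one_mul,
      cycBlock_eq, smul_add, Matrix.smul_mul, sub_add_eq_sub_sub]
  rw [hfac, det_mul, hNdef, det_one_sub_smul_cycNil, one_mul, det_one_sub_mul_comm,
    hBdef, hWdef, hUdef, cycW_mul_geom_mul_cycU]

omit [Fintype n] [DecidableEq n] in
lemma cycBlock_map {S : Type*} [CommRing S] (f : R →+* S) (m : ℕ) (M : Matrix n n R) :
    (cycBlock m M).map f = cycBlock m (M.map f) := by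
  ext p q
  simp only [Matrix.map_apply, cycBlock_apply]
  split_ifs
  · rfl
  · exact map_zero f

/-- The reversed characteristic polynomial of the cyclic block matrix. -/
theorem cycBlock_charpolyRev (m : ℕ) (M : Matrix n n R) :
    (cycBlock m M).charpolyRev = expand R (m + 1) (M ^ (m + 1)).charpolyRev := by
  have h1 : (cycBlock m M).charpolyRev
      = det (1 - (X : R[X]) ^ (m + 1) • (M ^ (m + 1)).map C) := by
    rw [Matrix.charpolyRev, cycBlock_map, det_one_sub_smul_cycBlock, Matrix.map_pow]
  have h2 : expand R (m + 1) (M ^ (m + 1)).charpolyRev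
      = det (1 - (X : R[X]) ^ (m + 1) • (M ^ (m + 1)).map C) := by
    rw [Matrix.charpolyRev, AlgHom.map_det]
    congr 1
    ext a b
    simp only [AlgHom.mapMatrix_apply, Matrix.map_apply, Matrix.sub_apply, Matrix.smul_apply,
      smul_eq_mul, map_sub, map_mul, expand_X, expand_C, Matrix.one_apply]
    split_ifs <;> simp
  rw [h1, h2]

omit [Fintype n] [DecidableEq n] in
/-- `reflect` and `expand`. -/
lemma reflect_expand_mul (d c : ℕ) (hd : 0 < d) (f : R[X]) :
    reflect (d * c) (expand R d f) = expand R d (reflect c f) := by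
  ext i
  rw [coeff_reflect, coeff_expand hd, coeff_expand hd, coeff_reflect]
  by_cases hi : i ≤ d * c
  · rw [revAt_le hi]
    by_cases hdi : d ∣ i
    · obtain ⟨j, rfl⟩ := hdi
      have hj : j ≤ c := Nat.le_of_mul_le_mul_left hi hd
      have e1 : d * c - d * j = d * (c - j) := by rw [Nat.mul_sub]
      rw [if_pos (Dvd.intro _ rfl), e1, if_pos (Dvd.intro _ rfl), Nat.mul_div_cancel_left _ hd,
        Nat.mul_div_cancel_left _ hd, revAt_le hj]
    · rw [if_neg hdi, if_neg]
      intro h
      apply hdi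
      have h2 : d ∣ d * c := Dvd.intro _ rfl
      have := (Nat.dvd_sub h2 h)
      rwa [Nat.sub_sub_self hi] at this
  · push Not at hi
    have hrev : revAt (d * c) i = i := by
      rw [revAt, Function.Embedding.coeFn_mk, if_neg (by omega)]
    rw [hrev]
    by_cases hdi : d ∣ i
    · obtain ⟨j, rfl⟩ := hdi
      have hj : c < j := lt_of_mul_lt_mul_left hi (Nat.zero_le d)
      have hrev' : revAt c j = j := by
        rw [revAt, Function.Embedding.coeFn_mk, if_neg (by omega)]
      rw [if_pos (Dvd.intro _ rfl), Nat.mul_div_cancel_left _ hd, hrev',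
        if_pos (Dvd.intro _ rfl)]
    · rw [if_neg hdi, if_neg hdi]

/-- **Characteristic polynomial of the cyclic block matrix**:
`χ_T(X) = χ_{M^(m+1)}(X^(m+1))`. -/
theorem cycBlock_charpoly (m : ℕ) (M : Matrix n n R) :
    (cycBlock m M).charpoly = expand R (m + 1) (M ^ (m + 1)).charpoly := by
  nontriviality R
  have hP : (cycBlock m M).charpoly.natDegree = (m + 1) * Fintype.card n := by
    rw [Matrix.charpoly_natDegree_eq_dim, Fintype.card_prod, Fintype.card_fin]
  have hQ : (M ^ (m + 1)).charpoly.natDegree = Fintype.card n :=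
    Matrix.charpoly_natDegree_eq_dim _
  have hrev := cycBlock_charpolyRev m M
  rw [← Matrix.reverse_charpoly, ← Matrix.reverse_charpoly] at hrev
  have h1 : (cycBlock m M).charpoly
      = reflect ((m + 1) * Fintype.card n) (cycBlock m M).charpoly.reverse := by
    rw [Polynomial.reverse, hP, reflect_reflect]
  rw [h1, hrev, Polynomial.reverse, hQ,
    reflect_expand_mul (m + 1) (Fintype.card n) (Nat.succ_pos m), reflect_reflect]

end Fermat.Agent.S56.EC.Ind
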