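/-
S56, wall W2-EC, leaf (B2), part 2 (helper7): block decomposition of characteristic polynomials.

* `charpoly_eq_prod_toSquareBlock`: a matrix whose entries vanish outside the fibres of
  `b : I → Fin N` has characteristic polynomial `∏_k χ(block k)`;
* `charpoly_of_cycle`: a matrix indexed by `J ≃ Fin (m+1) × n` with the block `G` at the
  positions `(i + 1, i)` has characteristic polynomial `χ_{G^(m+1)}(X^(m+1))`.
-/
import Fermat.Agent.S56.W2.EC.Brauer.Ind.CycBlock

set_option autoImplicit false

namespace Fermat.Agent.S56.EC.Ind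

open Matrix Polynomial

variable {R : Type*} [CommRing R]

/-- The characteristic polynomial of a matrix which is block diagonal with respect to
`b : I → Fin N`. -/
theorem charpoly_eq_prod_toSquareBlock {I : Type*} [Fintype I] [DecidableEq I] {N : ℕ}
    (P : Matrix I I R) (b : I → Fin N) (hP : ∀ i j, b i ≠ b j → P i j = 0) :
    P.charpoly = ∏ k : Fin N, (P.toSquareBlock b k).charpoly := by
  have hBT : BlockTriangular (charmatrix P) b := by
    intro i j hij
    have hne : i ≠ j := by
      rintro rfl
      exact lt_irrefl _ hij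
    rw [charmatrix_apply_ne _ _ _ hne, hP i j hij.ne', map_zero, neg_zero]
  rw [Matrix.charpoly, hBT.det_fintype]
  refine Finset.prod_congr rfl fun k _ => ?_
  rw [Matrix.charpoly]
  congr 1
  ext ⟨i, hi⟩ ⟨j, hj⟩
  simp only [toSquareBlock_def, Matrix.of_apply, charmatrix_apply, Matrix.diagonal_apply,
    Subtype.mk.injEq]

/-- The characteristic polynomial of a "cycle" block. -/
theorem charpoly_of_cycle {J n : Type*} [Fintype J] [DecidableEq J] [Fintype n] [DecidableEq n]
    (Q : Matrix J J R) (m : ℕ) (φ : J ≃ Fin (m + 1) × n) (G : Matrix n n R)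
    (hQ : ∀ i j, Q i j = if (φ i).1 = (φ j).1 + 1 then G (φ i).2 (φ j).2 else 0) :
    Q.charpoly = expand R (m + 1) (G ^ (m + 1)).charpoly := by
  have h : Q = Matrix.reindex φ.symm φ.symm (cycBlock m G) := by
    ext i j
    rw [hQ, Matrix.reindex_apply, Matrix.submatrix_apply, Equiv.symm_symm, cycBlock_apply]
  rw [h, Matrix.charpoly_reindex, cycBlock_charpoly]

end Fermat.Agent.S56.EC.Ind
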