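/-
S56, wall W2-EC, leaf (B2), part 3 (helper7): the operator `γ` on `Hom(k[X], A)` as a block
permutation matrix.

* `twistedShift g s : (X → A) → (X → A)`, `F ↦ (x ↦ g (F (s x)))`;
* `homRep_conj` : `γ` on `Hom(k[Γ/C], A)` is conjugate to `twistedShift (ρ_A γ) (γ⁻¹ • ·)`;
* `twistedShift_toMatrix` : its matrix in the basis `Pi.basis (fun _ => b)`.
-/
import Fermat.Agent.S56.W2.EC.Brauer.Defs
import Fermat.Agent.S56.W2.EC.Brauer.Ind.Block

set_option autoImplicit false

namespace Fermat.Agent.S56.EC.Ind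

open Fermat.Agent.F4 Polynomial Matrix

variable {k : Type} [Field k]

/-- The operator `F ↦ (x ↦ g (F (s x)))` on `X → A`. -/
noncomputable def twistedShift {X A : Type} [AddCommGroup A] [Module k A]
    (g : A →ₗ[k] A) (s : X → X) : (X → A) →ₗ[k] (X → A) :=
  (g.compLeft X) ∘ₗ (LinearMap.funLeft k A s)

lemma twistedShift_apply {X A : Type} [AddCommGroup A] [Module k A]
    (g : A →ₗ[k] A) (s : X → X) (F : X → A) (x : X) :
    twistedShift g s F x = g (F (s x)) := rfl

/-- The matrix of `twistedShift g s` in the basis `Pi.basis (fun _ => b)`. -/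
lemma twistedShift_toMatrix {X A n : Type} [Fintype X] [DecidableEq X] [Fintype n]
    [DecidableEq n] [AddCommGroup A] [Module k A] (b : Module.Basis n k A)
    (g : A →ₗ[k] A) (s : X → X) (i j : Σ _ : X, n) :
    LinearMap.toMatrix (Pi.basis fun _ : X => b) (Pi.basis fun _ : X => b) (twistedShift g s) i j
      = if s i.1 = j.1 then LinearMap.toMatrix b b g i.2 j.2 else 0 := by
  obtain ⟨x, a⟩ := i
  obtain ⟨y, c⟩ := j
  rw [LinearMap.toMatrix_apply, Pi.basis_repr, Pi.basis_apply, twistedShift_apply]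
  simp only [Pi.single_apply]
  split_ifs with h
  · rw [LinearMap.toMatrix_apply]
  · rw [map_zero, map_zero, Finsupp.zero_apply]

variable {Γ : Type} [Group Γ]

/-- `Hom(k^X, A) ≃ (X → A)`, `φ ↦ (x ↦ φ (δ_x))`. -/
noncomputable def homPiEquiv (X A : Type) [Finite X] [DecidableEq X] [AddCommGroup A]
    [Module k A] : ((X → k) →ₗ[k] A) ≃ₗ[k] (X → A) :=
  ((Pi.basisFun k X).constr k).symm

lemma homPiEquiv_apply {X A : Type} [Finite X] [DecidableEq X] [AddCommGroup A] [Module k A]
    (φ : (X → k) →ₗ[k] A) (x : X) :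
    homPiEquiv (k := k) X A φ x = φ (Pi.single x 1) := by
  rw [homPiEquiv, Module.Basis.constr_symm_apply, Pi.basisFun_apply]

/-- The operator `γ` on `Hom(k[Γ/C], A)` is conjugate to the twisted shift. -/
lemma homRep_conj [Finite Γ] (C : Subgroup Γ) [DecidableEq (Γ ⧸ C)]
    (A : Rep.{0} k Γ) (γ : Γ) :
    (homPiEquiv (k := k) (Γ ⧸ C) A).conj ((homRep (permRep k C) A).ρ γ)
      = twistedShift (A.ρ γ) (fun x : Γ ⧸ C => γ⁻¹ • x) := by
  refine LinearMap.ext fun F => funext fun x => ?_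
  rw [LinearEquiv.conj_apply, LinearMap.comp_apply, LinearMap.comp_apply, LinearEquiv.coe_coe,
    LinearEquiv.coe_coe, homPiEquiv_apply, twistedShift_apply]
  have h1 : ((homRep (permRep k C) A).ρ γ ((homPiEquiv (k := k) (Γ ⧸ C) A).symm F)
      : (Γ ⧸ C → k) →ₗ[k] A) (Pi.single x 1)
      = A.ρ γ (((homPiEquiv (k := k) (Γ ⧸ C) A).symm F)
          ((permRep k C).ρ γ⁻¹ (Pi.single x (1 : k)))) := rfl
  have h2 : ((permRep k C).ρ γ⁻¹ (Pi.single x (1 : k)) : Γ ⧸ C → k)
      = Pi.single (γ⁻¹ • x) (1 : k) := by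
    funext y
    rw [permRep_ρ_apply, inv_inv, Pi.single_apply, Pi.single_apply]
    have : γ • y = x ↔ y = γ⁻¹ • x := by
      constructor
      · rintro rfl
        rw [inv_smul_smul]
      · rintro rfl
        rw [smul_inv_smul]
    simp only [this]
  rw [h1, h2, ← homPiEquiv_apply, LinearEquiv.apply_symm_apply]

end Fermat.Agent.S56.EC.Ind
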