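/-
S56, wall W2-EC, leaf (B2), part 4 (helper7): an orbit of `⟨γ⟩` is a cycle.
-/
import Mathlib

set_option autoImplicit false

namespace Fermat.Agent.S56.EC.Ind

open MulAction Function

variable {Γ : Type*} [Group Γ] {X : Type*} [MulAction Γ X]

/-- The orbit of `x0` under `⟨γ⟩` is a cycle of length `m + 1 = #orbit`, on which `γ` acts
as `+ 1`. -/
theorem exists_cycle_equiv [Finite X] (γ : Γ) (x0 : X) :
    ∃ (m : ℕ) (φ0 : orbit (Subgroup.zpowers γ) x0 ≃ Fin (m + 1)),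
      m + 1 = Nat.card (orbit (Subgroup.zpowers γ) x0) ∧
      ∀ y z : orbit (Subgroup.zpowers γ) x0, (z : X) = γ • (y : X) → φ0 z = φ0 y + 1 := by
  classical
  haveI : Fintype (orbit (Subgroup.zpowers γ) x0) := Fintype.ofFinite _
  have hcard : minimalPeriod (γ • ·) x0 = Nat.card (orbit (Subgroup.zpowers γ) x0) := by
    rw [Nat.card_eq_fintype_card]
    exact MulAction.minimalPeriod_eq_card γ x0
  have hpos : 0 < minimalPeriod (γ • ·) x0 := by
    rw [hcard]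
    haveI : Nonempty (orbit (Subgroup.zpowers γ) x0) := ⟨⟨x0, mem_orbit_self x0⟩⟩
    exact Nat.card_pos
  obtain ⟨m, hm⟩ : ∃ m, minimalPeriod (γ • ·) x0 = m + 1 :=
    ⟨minimalPeriod (γ • ·) x0 - 1, by omega⟩
  let e0 := orbitZPowersEquiv γ x0
  let e1 : ZMod (minimalPeriod (γ • ·) x0) ≃+* ZMod (m + 1) := ZMod.ringEquivCongr hm
  refine ⟨m, e0.trans e1.toEquiv, by rw [← hm, hcard], ?_⟩
  intro y z hz
  haveI : NeZero (minimalPeriod (γ • ·) x0) := ⟨hpos.ne'⟩
  obtain ⟨c, rfl⟩ : ∃ c, y = e0.symm c := ⟨e0 y, (e0.symm_apply_apply y).symm⟩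
  have hc : (((ZMod.cast c : ℤ) : ℤ) : ZMod (minimalPeriod (γ • ·) x0)) = c := by
    rw [ZMod.intCast_cast, ZMod.cast_id', id]
  have key : e0 z = c + 1 := by
    have h2 : z = e0.symm ((((ZMod.cast c : ℤ) + 1 : ℤ) : ZMod _)) := by
      apply Subtype.ext
      rw [hz, orbitZPowersEquiv_symm_apply' γ x0 ((ZMod.cast c : ℤ) + 1)]
      have h3 : e0.symm c = e0.symm (((ZMod.cast c : ℤ) : ZMod _)) := by rw [hc]
      rw [h3, orbitZPowersEquiv_symm_apply' γ x0 (ZMod.cast c : ℤ), add_comm, zpow_add, zpow_one,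
        mul_smul]
      rfl
    rw [h2, Equiv.apply_symm_apply, Int.cast_add, Int.cast_one, hc]
  show e1 (e0 z) = e1 (e0 (e0.symm c)) + 1
  rw [key, Equiv.apply_symm_apply, map_add, map_one]

end Fermat.Agent.S56.EC.Ind
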