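/-
S56, wall W2-EC, leaf (B2), part 5 (helper7): the characteristic polynomial of the twisted
shift `F ↦ (x ↦ g (F (γ⁻¹ x)))` on `X → A` is `∏_{orbits ω of ⟨γ⟩} χ_{g^{|ω|}}(T^{|ω|})`.
-/
import Fermat.Agent.S56.W2.EC.Brauer.Ind.Hom
import Fermat.Agent.S56.W2.EC.Brauer.Ind.Orbit

set_option autoImplicit false

namespace Fermat.Agent.S56.EC.Ind

open Fermat.Agent.F4 Polynomial Matrix MulAction

variable {k : Type} [Field k] {Γ : Type} [Group Γ]
variable {X A n : Type} [Fintype X] [DecidableEq X] [MulAction Γ X]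
  [Fintype n] [DecidableEq n] [AddCommGroup A] [Module k A] [Module.Finite k A]

/-- The block of the orbit of `x0`. -/
theorem block_charpoly (γ : Γ) (g : A →ₗ[k] A) (b : Module.Basis n k A) {N : ℕ}
    (ε : orbitRel.Quotient (Subgroup.zpowers γ) X ≃ Fin N) (x0 : X) :
    ((LinearMap.toMatrix (Pi.basis fun _ : X => b) (Pi.basis fun _ : X => b)
        (twistedShift g (fun x : X => γ⁻¹ • x))).toSquareBlock
        (fun i : Σ _ : X, n => ε (Quotient.mk'' i.1)) (ε (Quotient.mk'' x0))).charpoly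
      = expand k (Nat.card (orbit (Subgroup.zpowers γ) x0))
          (LinearMap.charpoly (g ^ Nat.card (orbit (Subgroup.zpowers γ) x0))) := by
  obtain ⟨m, φ0, hm, hφ0⟩ := exists_cycle_equiv γ x0
  have hmem : ∀ x : X, ε (Quotient.mk'' x) = ε (Quotient.mk'' x0) ↔
      x ∈ orbit (Subgroup.zpowers γ) x0 := by
    intro x
    rw [ε.apply_eq_iff_eq, Quotient.eq'', orbitRel_apply]
  have hγ : ∀ y : X, y ∈ orbit (Subgroup.zpowers γ) x0 →
      γ • y ∈ orbit (Subgroup.zpowers γ) x0 := by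
    intro y hy
    have : γ • y = (⟨γ, Subgroup.mem_zpowers γ⟩ : Subgroup.zpowers γ) • y := rfl
    rw [this, ← MulAction.orbit_eq_iff.2 hy]
    exact mem_orbit y _
  let φ : {i : Σ _ : X, n // ε (Quotient.mk'' i.1) = ε (Quotient.mk'' x0)} ≃ Fin (m + 1) × n :=
    { toFun := fun i => (φ0 ⟨i.1.1, (hmem _).1 i.2⟩, i.1.2)
      invFun := fun q => ⟨⟨(φ0.symm q.1 : X), q.2⟩, (hmem _).2 (φ0.symm q.1).2⟩
      left_inv := by
        rintro ⟨⟨x, a⟩, h⟩
        apply Subtype.ext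
        simp only [Equiv.symm_apply_apply]
      right_inv := by
        rintro ⟨c, a⟩
        simp only [Subtype.coe_eta, Equiv.apply_symm_apply] }
  rw [← hm, ← LinearMap.charpoly_toMatrix (g ^ (m + 1)) b, ← LinearMap.toMatrix_pow]
  refine charpoly_of_cycle _ m φ _ ?_
  rintro ⟨⟨x, a⟩, hx⟩ ⟨⟨y, c⟩, hy⟩
  rw [toSquareBlock_def, Matrix.of_apply, twistedShift_toMatrix]
  have hx' := (hmem _).1 hx
  have hy' := (hmem _).1 hy
  have hiff : γ⁻¹ • x = y ↔ φ0 ⟨x, hx'⟩ = φ0 ⟨y, hy'⟩ + 1 := by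
    constructor
    · intro h
      refine hφ0 ⟨y, hy'⟩ ⟨x, hx'⟩ ?_
      show x = γ • y
      rw [← h, smul_inv_smul]
    · intro h
      have h2 := hφ0 ⟨y, hy'⟩ ⟨γ • y, hγ y hy'⟩ rfl
      have h3 : (⟨x, hx'⟩ : orbit (Subgroup.zpowers γ) x0) = ⟨γ • y, hγ y hy'⟩ :=
        φ0.injective (h.trans h2.symm)
      have h4 : x = γ • y := congrArg Subtype.val h3
      rw [h4, inv_smul_smul]
  show (if γ⁻¹ • x = y then _ else _) = if φ0 ⟨x, hx'⟩ = φ0 ⟨y, hy'⟩ + 1 then _ else _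
  simp only [hiff]
  rfl

/-- **Characteristic polynomial of the twisted shift.** -/
theorem charpoly_twistedShift (γ : Γ) (g : A →ₗ[k] A) :
    LinearMap.charpoly (twistedShift g (fun x : X => γ⁻¹ • x))
      = ∏ᶠ ω : orbitRel.Quotient (Subgroup.zpowers γ) X,
          expand k (Nat.card ω.orbit) (LinearMap.charpoly (g ^ Nat.card ω.orbit)) := by
  classical
  haveI : Fintype (orbitRel.Quotient (Subgroup.zpowers γ) X) := Fintype.ofFinite _
  let b := Module.Free.chooseBasis k A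
  let ε := Fintype.equivFin (orbitRel.Quotient (Subgroup.zpowers γ) X)
  rw [← LinearMap.charpoly_toMatrix _ (Pi.basis fun _ : X => b),
    charpoly_eq_prod_toSquareBlock _
      (fun i : Σ _ : X, Module.Free.ChooseBasisIndex k A => ε (Quotient.mk'' i.1)),
    finprod_eq_prod_of_fintype, ← Equiv.prod_comp ε.symm]
  · refine Finset.prod_congr rfl fun c _ => ?_
    obtain ⟨x0, hx0⟩ : ∃ x0 : X, (Quotient.mk'' x0 : orbitRel.Quotient _ X) = ε.symm c :=
      Quotient.exists_rep (ε.symm c)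
    have hc : c = ε (Quotient.mk'' x0) := by rw [hx0, Equiv.apply_symm_apply]
    rw [← hx0, orbitRel.Quotient.orbit_mk, hc]
    exact block_charpoly γ g b ε x0
  · rintro ⟨x, a⟩ ⟨y, c⟩ hne
    rw [twistedShift_toMatrix, if_neg]
    intro h
    apply hne
    have h' : γ⁻¹ • x = y := h
    show ε (Quotient.mk'' x) = ε (Quotient.mk'' y)
    rw [← h']
    congr 1
    rw [Quotient.eq'', orbitRel_apply]
    have : γ⁻¹ • x = (⟨γ, Subgroup.mem_zpowers γ⟩ : Subgroup.zpowers γ)⁻¹ • x := rfl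
    rw [this, mem_orbit_symm]
    exact mem_orbit _ _

end Fermat.Agent.S56.EC.Ind
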